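import Mathlib

/-!
# S25B, package A5 (RigSheaf), layer "Ev" (helper270)

Setting: `σ : T ⟶ X` a morphism of schemes, `L : X.Modules`.  By the adjunction
`pullback σ ⊣ pushforward σ`, a morphism `ρ : σ^* L ⟶ 𝒪_T` is the same as a morphism
`e : L ⟶ σ_* 𝒪_T` ("evaluation along σ in the trivialisation ρ").

Main results (no `pullbackComp` coherence anywhere; Yoneda + adjunction + gluing of sections):

* `ev_factor` : if `ρ` is an isomorphism then every `ψ : L ⟶ σ_* N` is of the form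
  `s ↦ e s • ν` for a global section `ν` of `N`;
* `isUnit_ev_of_isIso` : if `ρ` is an isomorphism then `e` sends local generators of `L`
  to units;
* `isIso_of_isUnit_ev` : conversely, if `e` sends local generators of `L` to units near every
  point of `σ(T)`, then `ρ` is an isomorphism.
-/

set_option autoImplicit false

universe u

open CategoryTheory AlgebraicGeometry TopologicalSpace Opposite

noncomputable section

namespace Fermat.Agent.S25.ZAR.H270

variable {X T : Scheme.{u}}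

/-! ### Sections toolkit -/

/-- Restriction of sections of a module, as an additive map. -/
def res (M : X.Modules) {V W : X.Opens} (h : W ≤ V) : Γ(M, V) →+ Γ(M, W) :=
  (M.presheaf.map (homOfLE h).op).hom

theorem res_res (M : X.Modules) {V W W' : X.Opens} (h : W ≤ V) (h' : W' ≤ W) (x : Γ(M, V)) :
    res M h' (res M h x) = res M (h'.trans h) x := by
  unfold res
  rw [← AddCommGrpCat.comp_apply, ← Functor.map_comp]
  rfl

theorem res_self (M : X.Modules) {V : X.Opens} (h : V ≤ V) (x : Γ(M, V)) :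
    res M h x = x := by
  unfold res
  have : (homOfLE h).op = 𝟙 (op V) := rfl
  rw [this, M.presheaf.map_id]
  rfl

/-- Restriction of functions, as a ring map. -/
def resO (X : Scheme.{u}) {V W : X.Opens} (h : W ≤ V) : Γ(X, V) →+* Γ(X, W) :=
  (X.presheaf.map (homOfLE h).op).hom

theorem resO_resO {V W W' : X.Opens} (h : W ≤ V) (h' : W' ≤ W) (r : Γ(X, V)) :
    resO X h' (resO X h r) = resO X (h'.trans h) r := by
  unfold resO
  rw [← CommRingCat.comp_apply, ← Functor.map_comp]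
  rfl

theorem resO_self {V : X.Opens} (h : V ≤ V) (r : Γ(X, V)) : resO X h r = r := by
  unfold resO
  have : (homOfLE h).op = 𝟙 (op V) := rfl
  rw [this, X.presheaf.map_id]
  rfl

theorem res_smul (M : X.Modules) {V W : X.Opens} (h : W ≤ V) (r : Γ(X, V)) (x : Γ(M, V)) :
    res M h (r • x) = resO X h r • res M h x :=
  Scheme.Modules.map_smul M (homOfLE h) r x

/-- Sections of a sheaf of modules are determined locally. -/
theorem res_ext (M : X.Modules) {A : Type*} (W : A → X.Opens) (V : X.Opens)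
    (hW : ∀ a, W a ≤ V) (hcov : V ≤ ⨆ a, W a) (s t : Γ(M, V))
    (h : ∀ a, res M (hW a) s = res M (hW a) t) : s = t :=
  TopCat.Sheaf.eq_of_locally_eq' (⟨M.presheaf, M.isSheaf⟩ : TopCat.Sheaf Ab X) W V
    (fun a => homOfLE (hW a)) hcov s t h

/-- Compatible local sections of a sheaf of modules glue. -/
theorem res_glue (M : X.Modules) {A : Type*} (W : A → X.Opens) (V : X.Opens)
    (hW : ∀ a, W a ≤ V) (hcov : V ≤ ⨆ a, W a) (sf : ∀ a, Γ(M, W a))
    (hsf : ∀ a b, res M (inf_le_left : W a ⊓ W b ≤ W a) (sf a) =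
      res M (inf_le_right : W a ⊓ W b ≤ W b) (sf b)) :
    ∃ s : Γ(M, V), ∀ a, res M (hW a) s = sf a := by
  obtain ⟨s, hs, -⟩ := TopCat.Sheaf.existsUnique_gluing'
    (⟨M.presheaf, M.isSheaf⟩ : TopCat.Sheaf Ab X) W V (fun a => homOfLE (hW a)) hcov sf hsf
  exact ⟨s, hs⟩

/-- Naturality of a morphism of modules with respect to restriction of sections. -/
theorem app_res {M N : X.Modules} (f : M ⟶ N) {V W : X.Opens} (h : W ≤ V)
    (x : Γ(M, V)) : f.app W (res M h x) = res N h (f.app V x) := by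
  have := f.mapPresheaf.naturality (homOfLE h).op
  exact congr($this x)

/-- Naturality of a morphism of schemes with respect to restriction of functions. -/
theorem app_resO (σ : T ⟶ X) {V W : X.Opens} (h : W ≤ V) (r : Γ(X, V)) :
    σ.app W (resO X h r) = resO T (show σ ⁻¹ᵁ W ≤ σ ⁻¹ᵁ V from fun _ hx => h hx) (σ.app V r) := by
  have := σ.naturality (homOfLE h).op
  exact congr($this r)

/-- Build a morphism of modules from sections-level data. -/
def homOfSections {M N : X.Modules} (φ : ∀ O : X.Opens, Γ(M, O) →+ Γ(N, O))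
    (nat : ∀ (O O' : X.Opens) (h : O' ≤ O) (s : Γ(M, O)),
      φ O' (res M h s) = res N h (φ O s))
    (lin : ∀ (O : X.Opens) (r : Γ(X, O)) (s : Γ(M, O)), φ O (r • s) = r • φ O s) : M ⟶ N :=
  ⟨PresheafOfModules.homMk
    { app := fun O => AddCommGrpCat.ofHom (φ O.unop)
      naturality := by
        intro O O' i
        apply AddCommGrpCat.hom_ext
        apply AddMonoidHom.ext
        intro s
        exact nat O.unop O'.unop (leOfHom i.unop) s }
    (fun O r s => lin O.unop r s)⟩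

theorem homOfSections_app {M N : X.Modules} (φ : ∀ O : X.Opens, Γ(M, O) →+ Γ(N, O))
    (nat : ∀ (O O' : X.Opens) (h : O' ≤ O) (s : Γ(M, O)),
      φ O' (res M h s) = res N h (φ O s))
    (lin : ∀ (O : X.Opens) (r : Γ(X, O)) (s : Γ(M, O)), φ O (r • s) = r • φ O s)
    (O : X.Opens) (s : Γ(M, O)) : (homOfSections φ nat lin).app O s = φ O s := rfl

/-! ### The unit module -/

/-- The structure sheaf as a module over itself. -/
abbrev 𝒪m (T : Scheme.{u}) : T.Modules := SheafOfModules.unit T.ringCatSheaf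

/-- Sections of the unit module are functions. -/
def unitSec (V : T.Opens) : Γ(𝒪m T, V) ≃+ Γ(T, V) := AddEquiv.refl _

theorem unitSec_smul (V : T.Opens) (r : Γ(T, V)) (x : Γ(𝒪m T, V)) :
    unitSec V (r • x) = r * unitSec V x := rfl

theorem unitSec_res {V W : T.Opens} (h : W ≤ V) (x : Γ(𝒪m T, V)) :
    unitSec W (res (𝒪m T) h x) = resO T h (unitSec V x) := rfl

theorem smul_unitSec_symm_one (V : T.Opens) (x : Γ(𝒪m T, V)) :
    unitSec V x • (unitSec V).symm 1 = x := by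
  apply (unitSec V).injective
  rw [unitSec_smul]
  simp

/-- A morphism out of the unit module is determined by the image of `1`. -/
theorem unit_hom_app {N : T.Modules} (n : 𝒪m T ⟶ N) (V : T.Opens) (x : Γ(𝒪m T, V)) :
    n.app V x = unitSec V x • res N le_top (n.app ⊤ ((unitSec ⊤).symm 1)) := by
  rw [← app_res n le_top, ← Scheme.Modules.Hom.app_smul]
  congr 1
  have h1 : res (𝒪m T) (le_top : V ≤ ⊤) ((unitSec ⊤).symm 1) = (unitSec V).symm 1 := by
    apply (unitSec V).injective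
    rw [unitSec_res]
    simp
  rw [h1, smul_unitSec_symm_one]

/-- The morphism out of the unit module attached to a global section. -/
def ofSec {N : T.Modules} (ν : Γ(N, ⊤)) : 𝒪m T ⟶ N :=
  homOfSections
    (fun V =>
      { toFun := fun x => unitSec V x • res N (le_top : V ≤ ⊤) ν
        map_zero' := by simp
        map_add' := fun x y => by rw [map_add, add_smul] })
    (fun V W h x => by
      change unitSec W (res (𝒪m T) h x) • res N (le_top : W ≤ ⊤) ν =
        res N h (unitSec V x • res N (le_top : V ≤ ⊤) ν)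
      rw [res_smul, res_res, unitSec_res])
    (fun V r x => by
      change unitSec V (r • x) • res N (le_top : V ≤ ⊤) ν =
        r • (unitSec V x • res N (le_top : V ≤ ⊤) ν)
      rw [unitSec_smul, mul_smul])

theorem ofSec_app {N : T.Modules} (ν : Γ(N, ⊤)) (V : T.Opens) (x : Γ(𝒪m T, V)) :
    (ofSec ν).app V x = unitSec V x • res N le_top ν := rfl

theorem unit_hom_ext {N : T.Modules} {n n' : 𝒪m T ⟶ N}
    (h : n.app ⊤ ((unitSec ⊤).symm 1) = n'.app ⊤ ((unitSec ⊤).symm 1)) : n = n' := by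
  apply Scheme.Modules.hom_ext
  intro V
  apply AddCommGrpCat.hom_ext
  apply AddMonoidHom.ext
  intro x
  change n.app V x = n'.app V x
  rw [unit_hom_app n, unit_hom_app n', h]

/-! ### Sections of a pushforward -/

section Ev

variable (σ : T ⟶ X) {L : X.Modules} {N : T.Modules}

theorem preimage_mono' {V W : X.Opens} (h : W ≤ V) : σ ⁻¹ᵁ W ≤ σ ⁻¹ᵁ V := fun _ hx => h hx

/-- The action on sections of a morphism into a pushforward, with values in sections of the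
module upstairs. -/
def pev (φ : L ⟶ (Scheme.Modules.pushforward σ).obj N) (O : X.Opens) :
    Γ(L, O) →+ Γ(N, σ ⁻¹ᵁ O) :=
  (φ.app O).hom

theorem pev_res (φ : L ⟶ (Scheme.Modules.pushforward σ).obj N) {V W : X.Opens} (h : W ≤ V)
    (s : Γ(L, V)) : pev σ φ W (res L h s) = res N (preimage_mono' σ h) (pev σ φ V s) :=
  app_res φ h s

theorem pev_smul (φ : L ⟶ (Scheme.Modules.pushforward σ).obj N) (O : X.Opens) (r : Γ(X, O))
    (s : Γ(L, O)) : pev σ φ O (r • s) = σ.app O r • pev σ φ O s :=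
  Scheme.Modules.Hom.app_smul φ r s

theorem pev_ext {φ φ' : L ⟶ (Scheme.Modules.pushforward σ).obj N}
    (h : ∀ (O : X.Opens) (s : Γ(L, O)), pev σ φ O s = pev σ φ' O s) : φ = φ' := by
  apply Scheme.Modules.hom_ext
  intro O
  apply AddCommGrpCat.hom_ext
  apply AddMonoidHom.ext
  intro s
  exact h O s

/-- Evaluation of sections: the function on `σ⁻¹ O` attached to a section of `L` over `O` by a
morphism `e : L ⟶ σ_* 𝒪_T`. -/
def ev (e : L ⟶ (Scheme.Modules.pushforward σ).obj (𝒪m T)) (O : X.Opens) :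
    Γ(L, O) →+ Γ(T, σ ⁻¹ᵁ O) :=
  (unitSec (σ ⁻¹ᵁ O)).toAddMonoidHom.comp (pev σ e O)

theorem ev_res (e : L ⟶ (Scheme.Modules.pushforward σ).obj (𝒪m T)) {V W : X.Opens} (h : W ≤ V)
    (s : Γ(L, V)) : ev σ e W (res L h s) = resO T (preimage_mono' σ h) (ev σ e V s) := by
  change unitSec _ (pev σ e W (res L h s)) = _
  rw [pev_res]
  rfl

theorem ev_smul (e : L ⟶ (Scheme.Modules.pushforward σ).obj (𝒪m T)) (O : X.Opens) (r : Γ(X, O))
    (s : Γ(L, O)) : ev σ e O (r • s) = σ.app O r * ev σ e O s := by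
  change unitSec _ (pev σ e O (r • s)) = _
  rw [pev_smul]
  rfl

/-- The morphism `σ^* L ⟶ 𝒪_T` adjoint to `e : L ⟶ σ_* 𝒪_T`. -/
def rhoOf (e : L ⟶ (Scheme.Modules.pushforward σ).obj (𝒪m T)) :
    (Scheme.Modules.pullback σ).obj L ⟶ 𝒪m T :=
  ((Scheme.Modules.pullbackPushforwardAdjunction σ).homEquiv L _).symm e

/-- The morphism `L ⟶ σ_* 𝒪_T` adjoint to `ρ : σ^* L ⟶ 𝒪_T`. -/
def evOf (ρ : (Scheme.Modules.pullback σ).obj L ⟶ 𝒪m T) :
    L ⟶ (Scheme.Modules.pushforward σ).obj (𝒪m T) :=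
  (Scheme.Modules.pullbackPushforwardAdjunction σ).homEquiv L _ ρ

@[simp] theorem rhoOf_evOf (ρ : (Scheme.Modules.pullback σ).obj L ⟶ 𝒪m T) :
    rhoOf σ (evOf σ ρ) = ρ := Equiv.symm_apply_apply _ _

@[simp] theorem evOf_rhoOf (e : L ⟶ (Scheme.Modules.pushforward σ).obj (𝒪m T)) :
    evOf σ (rhoOf σ e) = e := Equiv.apply_symm_apply _ _

/-- The adjunction formula: the morphism `L ⟶ σ_* N` adjoint to `ρ ≫ n` is
`s ↦ n (e s)`. -/
theorem pev_homEquiv_comp (ρ : (Scheme.Modules.pullback σ).obj L ⟶ 𝒪m T) (n : 𝒪m T ⟶ N)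
    (O : X.Opens) (s : Γ(L, O)) :
    pev σ ((Scheme.Modules.pullbackPushforwardAdjunction σ).homEquiv L N (ρ ≫ n)) O s =
      ev σ (evOf σ ρ) O s • res N le_top (n.app ⊤ ((unitSec ⊤).symm 1)) := by
  rw [Adjunction.homEquiv_naturality_right]
  exact unit_hom_app n (σ ⁻¹ᵁ O) _

/-- **Yoneda form.**  If `ρ : σ^* L ⟶ 𝒪_T` is an isomorphism with adjoint `e`, then every
morphism `ψ : L ⟶ σ_* N` is `s ↦ e s • ν` for a global section `ν` of `N`. -/
theorem ev_factor (ρ : (Scheme.Modules.pullback σ).obj L ⟶ 𝒪m T) [IsIso ρ]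
    (ψ : L ⟶ (Scheme.Modules.pushforward σ).obj N) :
    ∃ ν : Γ(N, ⊤), ∀ (O : X.Opens) (s : Γ(L, O)),
      pev σ ψ O s = ev σ (evOf σ ρ) O s • res N le_top ν := by
  let adj := Scheme.Modules.pullbackPushforwardAdjunction σ
  let n : 𝒪m T ⟶ N := inv ρ ≫ (adj.homEquiv L N).symm ψ
  refine ⟨n.app ⊤ ((unitSec ⊤).symm 1), fun O s => ?_⟩
  rw [← pev_homEquiv_comp σ ρ n O s]
  have : ρ ≫ n = (adj.homEquiv L N).symm ψ := by simp [n]
  rw [this, Equiv.apply_symm_apply]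

/-! ### Local generators -/

/-- `g` generates `L` over `U`: over every open `V ≤ U`, every section of `L` is uniquely of the
form `r • g|_V`. -/
def IsGen (L : X.Modules) (U : X.Opens) (g : Γ(L, U)) : Prop :=
  ∀ (V : X.Opens) (h : V ≤ U), Function.Bijective (fun r : Γ(X, V) => r • res L h g)

theorem pev_gen_change (φ : L ⟶ (Scheme.Modules.pushforward σ).obj N) {U₁ U₂ W : X.Opens}
    (h₁ : W ≤ U₁) (h₂ : W ≤ U₂) (g₁ : Γ(L, U₁)) (g₂ : Γ(L, U₂)) (r : Γ(X, W))
    (hr : res L h₁ g₁ = r • res L h₂ g₂) :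
    res N (preimage_mono' σ h₁) (pev σ φ U₁ g₁) =
      σ.app W r • res N (preimage_mono' σ h₂) (pev σ φ U₂ g₂) := by
  rw [← pev_res σ φ h₁ g₁, hr, pev_smul, pev_res]

theorem ev_gen_change (e : L ⟶ (Scheme.Modules.pushforward σ).obj (𝒪m T)) {U₁ U₂ W : X.Opens}
    (h₁ : W ≤ U₁) (h₂ : W ≤ U₂) (g₁ : Γ(L, U₁)) (g₂ : Γ(L, U₂)) (r : Γ(X, W))
    (hr : res L h₁ g₁ = r • res L h₂ g₂) :
    resO T (preimage_mono' σ h₁) (ev σ e U₁ g₁) =
      σ.app W r * resO T (preimage_mono' σ h₂) (ev σ e U₂ g₂) := by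
  rw [← ev_res σ e h₁ g₁, hr, ev_smul, ev_res]

theorem smul_inv_compat {R M : Type*} [CommRing R] [AddCommGroup M] [Module R M]
    {a b₁ b₂ c₁ c₂ : R} {p₁ p₂ : M} (hb : b₁ = a * b₂) (hp : p₁ = a • p₂)
    (h1 : c₁ * b₁ = 1) (h2 : c₂ * b₂ = 1) : c₁ • p₁ = c₂ • p₂ := by
  have : c₁ * a = c₂ := by
    calc c₁ * a = c₁ * a * (c₂ * b₂) := by rw [h2, mul_one]
      _ = c₁ * (a * b₂) * c₂ := by ring
      _ = c₂ := by rw [← hb, h1, one_mul]
  rw [hp, smul_smul, this]

/-- **Ev (⇐).**  If `e : L ⟶ σ_* 𝒪_T` sends a local generator of `L` to a unit near every point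
of `σ(T)`, then the adjoint morphism `σ^* L ⟶ 𝒪_T` is an isomorphism. -/
theorem isIso_of_isUnit_ev (e : L ⟶ (Scheme.Modules.pushforward σ).obj (𝒪m T))
    (h : ∀ x : T, ∃ (U : X.Opens) (g : Γ(L, U)),
      σ.base x ∈ U ∧ IsGen L U g ∧ IsUnit (ev σ e U g)) :
    IsIso (rhoOf σ e) := by
  rw [isIso_iff_coyoneda_map_bijective]
  intro N
  choose U g hxU hgen hunit using h
  let adj := Scheme.Modules.pullbackPushforwardAdjunction σ
  have hcov : ∀ (O : X.Opens), σ ⁻¹ᵁ O ≤ ⨆ x : T, σ ⁻¹ᵁ (O ⊓ U x) := by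
    intro O y hy
    exact Opens.mem_iSup.mpr ⟨y, ⟨hy, hxU y⟩⟩
  have hcovtop : (⊤ : T.Opens) ≤ ⨆ x : T, σ ⁻¹ᵁ (U x) := by
    intro y _
    exact Opens.mem_iSup.mpr ⟨y, hxU y⟩
  have key : ∀ (n : 𝒪m T ⟶ N) (O : X.Opens) (s : Γ(L, O)),
      pev σ (adj.homEquiv L N (rhoOf σ e ≫ n)) O s =
        ev σ e O s • res N le_top (n.app ⊤ ((unitSec ⊤).symm 1)) := by
    intro n O s
    have := pev_homEquiv_comp σ (rhoOf σ e) n O s
    rwa [evOf_rhoOf] at this
  constructor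
  · intro n n' hnn
    apply unit_hom_ext
    apply res_ext N (fun x : T => σ ⁻¹ᵁ (U x)) ⊤ (fun _ => le_top) hcovtop
    intro x
    have h1 := key n (U x) (g x)
    have h2 := key n' (U x) (g x)
    have hnn' : rhoOf σ e ≫ n = rhoOf σ e ≫ n' := hnn
    rw [hnn', h2] at h1
    exact ((hunit x).smul_left_cancel.mp h1).symm
  · intro f
    -- the inverse units
    let c : ∀ x : T, Γ(T, σ ⁻¹ᵁ (U x)) := fun x => ((hunit x).unit⁻¹ : (Γ(T, σ ⁻¹ᵁ (U x)))ˣ)
    have hc : ∀ x, c x * ev σ e (U x) (g x) = 1 := fun x => (hunit x).val_inv_mul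
    let ψ := adj.homEquiv L N f
    let νx : ∀ x : T, Γ(N, σ ⁻¹ᵁ (U x)) := fun x => c x • pev σ ψ (U x) (g x)
    have hcompat : ∀ x y : T,
        res N (inf_le_left : σ ⁻¹ᵁ (U x) ⊓ σ ⁻¹ᵁ (U y) ≤ σ ⁻¹ᵁ (U x)) (νx x) =
          res N (inf_le_right : σ ⁻¹ᵁ (U x) ⊓ σ ⁻¹ᵁ (U y) ≤ σ ⁻¹ᵁ (U y)) (νx y) := by
      intro x y
      obtain ⟨r, hr⟩ := (hgen y (U x ⊓ U y) inf_le_right).2 (res L inf_le_left (g x))
      have hb := ev_gen_change σ e (inf_le_left : U x ⊓ U y ≤ U x) inf_le_right (g x) (g y) r hr.symm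
      have hp := pev_gen_change σ ψ (inf_le_left : U x ⊓ U y ≤ U x) inf_le_right (g x) (g y) r
        hr.symm
      have h1 : resO T (preimage_mono' σ (inf_le_left : U x ⊓ U y ≤ U x)) (c x) *
          resO T (preimage_mono' σ (inf_le_left : U x ⊓ U y ≤ U x)) (ev σ e (U x) (g x)) = 1 := by
        rw [← map_mul, hc, map_one]
      have h2 : resO T (preimage_mono' σ (inf_le_right : U x ⊓ U y ≤ U y)) (c y) *
          resO T (preimage_mono' σ (inf_le_right : U x ⊓ U y ≤ U y)) (ev σ e (U y) (g y)) = 1 := by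
        rw [← map_mul, hc, map_one]
      have := smul_inv_compat hb hp h1 h2
      change res N (preimage_mono' σ (inf_le_left : U x ⊓ U y ≤ U x)) (c x • pev σ ψ (U x) (g x)) =
        res N (preimage_mono' σ (inf_le_right : U x ⊓ U y ≤ U y)) (c y • pev σ ψ (U y) (g y))
      rw [res_smul, res_smul]
      exact this
    obtain ⟨ν, hν⟩ := res_glue N (fun x : T => σ ⁻¹ᵁ (U x)) ⊤ (fun _ => le_top) hcovtop νx hcompat
    refine ⟨ofSec ν, ?_⟩
    apply (adj.homEquiv L N).injective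
    apply pev_ext σ
    intro O s
    change pev σ (adj.homEquiv L N (rhoOf σ e ≫ ofSec ν)) O s = pev σ ψ O s
    rw [key]
    have hone : (ofSec ν).app ⊤ ((unitSec ⊤).symm 1) = ν := by
      rw [ofSec_app, AddEquiv.apply_symm_apply, one_smul, res_self]
    rw [hone]
    apply res_ext N (fun x : T => σ ⁻¹ᵁ (O ⊓ U x)) (σ ⁻¹ᵁ O)
      (fun x => preimage_mono' σ inf_le_left) (hcov O)
    intro x
    obtain ⟨r, hr⟩ := (hgen x (O ⊓ U x) inf_le_right).2 (res L inf_le_left s)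
    have hr' : res L inf_le_left s = r • res L (inf_le_right : O ⊓ U x ≤ U x) (g x) := hr.symm
    rw [← pev_res σ ψ (inf_le_left : O ⊓ U x ≤ O) s, hr', pev_smul, pev_res, res_smul,
      ← ev_res σ e (inf_le_left : O ⊓ U x ≤ O) s, hr', ev_smul, ev_res, res_res]
    have hνx : res N (preimage_mono' σ (inf_le_right : O ⊓ U x ≤ U x)) (νx x) =
        res N (le_top : σ ⁻¹ᵁ (O ⊓ U x) ≤ ⊤) ν := by
      rw [← hν x, res_res]
    rw [← hνx]
    change _ • res N _ (c x • pev σ ψ (U x) (g x)) = _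
    rw [res_smul, smul_smul, mul_assoc, mul_comm (resO T _ (ev σ e (U x) (g x))), ← map_mul, hc,
      map_one, mul_one]

/-! ### Coefficients with respect to a generator -/

section Coeff

variable {U : X.Opens} {g : Γ(L, U)} (hg : IsGen L U g)

/-- The coefficient of a section with respect to a generator. -/
def coeff (V : X.Opens) (h : V ≤ U) (s : Γ(L, V)) : Γ(X, V) :=
  (Equiv.ofBijective _ (hg V h)).symm s

theorem coeff_spec (V : X.Opens) (h : V ≤ U) (s : Γ(L, V)) :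
    coeff hg V h s • res L h g = s :=
  (Equiv.ofBijective _ (hg V h)).apply_symm_apply s

theorem coeff_unique (V : X.Opens) (h : V ≤ U) (s : Γ(L, V)) (r : Γ(X, V))
    (hr : r • res L h g = s) : coeff hg V h s = r := by
  apply (hg V h).1
  change coeff hg V h s • res L h g = r • res L h g
  rw [coeff_spec, hr]

theorem coeff_add (V : X.Opens) (h : V ≤ U) (s t : Γ(L, V)) :
    coeff hg V h (s + t) = coeff hg V h s + coeff hg V h t := by
  apply coeff_unique
  rw [add_smul, coeff_spec, coeff_spec]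

theorem coeff_smul (V : X.Opens) (h : V ≤ U) (a : Γ(X, V)) (s : Γ(L, V)) :
    coeff hg V h (a • s) = a * coeff hg V h s := by
  apply coeff_unique
  rw [mul_smul, coeff_spec]

theorem coeff_res (V W : X.Opens) (h : V ≤ U) (hW : W ≤ V) (s : Γ(L, V)) :
    coeff hg W (hW.trans h) (res L hW s) = resO X hW (coeff hg V h s) := by
  apply coeff_unique
  rw [← res_res L h hW g, ← res_smul, coeff_spec]

theorem coeff_gen (V : X.Opens) (h : V ≤ U) : coeff hg V h (res L h g) = 1 := by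
  apply coeff_unique
  rw [one_smul]

end Coeff

/-! ### The test module `j_* 𝒪_V` and the direction (⇒) -/

/-- Sections of `j_* 𝒪_V` (for the inclusion `j : V ⟶ T` of an open) are functions on `T`. -/
def jSec (V W : T.Opens) :
    Γ((Scheme.Modules.pushforward V.ι).obj (𝒪m V.toScheme), W) ≃+ Γ(T, V.ι ''ᵁ (V.ι ⁻¹ᵁ W)) :=
  AddEquiv.refl _

theorem image_preimage_le' (V W : T.Opens) : V.ι ''ᵁ (V.ι ⁻¹ᵁ W) ≤ W := by
  rw [Scheme.Hom.image_preimage_eq_opensRange_inf]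
  exact inf_le_right

theorem image_preimage_le_self (V W : T.Opens) : V.ι ''ᵁ (V.ι ⁻¹ᵁ W) ≤ V := by
  rw [Scheme.Hom.image_preimage_eq_opensRange_inf, Scheme.Opens.opensRange_ι]
  exact inf_le_left

theorem image_preimage_mono' (V : T.Opens) {W W' : T.Opens} (h : W' ≤ W) :
    V.ι ''ᵁ (V.ι ⁻¹ᵁ W') ≤ V.ι ''ᵁ (V.ι ⁻¹ᵁ W) :=
  Scheme.Hom.image_mono _ (fun _ hx => h hx)

theorem jSec_res (V : T.Opens) {W W' : T.Opens} (h : W' ≤ W)
    (x : Γ((Scheme.Modules.pushforward V.ι).obj (𝒪m V.toScheme), W)) :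
    jSec V W' (res _ h x) = resO T (image_preimage_mono' V h) (jSec V W x) := rfl

theorem jSec_smul (V W : T.Opens) (r : Γ(T, W))
    (x : Γ((Scheme.Modules.pushforward V.ι).obj (𝒪m V.toScheme), W)) :
    jSec V W (r • x) = resO T (image_preimage_le' V W) r * jSec V W x := rfl

/-- Build a morphism into a pushforward from sections-level data. -/
def homToPushforward (φ : ∀ O : X.Opens, Γ(L, O) →+ Γ(N, σ ⁻¹ᵁ O))
    (nat : ∀ (O O' : X.Opens) (h : O' ≤ O) (s : Γ(L, O)),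
      φ O' (res L h s) = res N (preimage_mono' σ h) (φ O s))
    (lin : ∀ (O : X.Opens) (r : Γ(X, O)) (s : Γ(L, O)), φ O (r • s) = σ.app O r • φ O s) :
    L ⟶ (Scheme.Modules.pushforward σ).obj N :=
  homOfSections (N := (Scheme.Modules.pushforward σ).obj N) φ nat lin

theorem pev_homToPushforward (φ : ∀ O : X.Opens, Γ(L, O) →+ Γ(N, σ ⁻¹ᵁ O))
    (nat : ∀ (O O' : X.Opens) (h : O' ≤ O) (s : Γ(L, O)),
      φ O' (res L h s) = res N (preimage_mono' σ h) (φ O s))
    (lin : ∀ (O : X.Opens) (r : Γ(X, O)) (s : Γ(L, O)), φ O (r • s) = σ.app O r • φ O s)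
    (O : X.Opens) (s : Γ(L, O)) : pev σ (homToPushforward σ φ nat lin) O s = φ O s := rfl

section Forward

variable {U : X.Opens} {g : Γ(L, U)} (hg : IsGen L U g)

theorem image_preimage_le_inf (O : X.Opens) :
    (σ ⁻¹ᵁ U).ι ''ᵁ ((σ ⁻¹ᵁ U).ι ⁻¹ᵁ (σ ⁻¹ᵁ O)) ≤ σ ⁻¹ᵁ (O ⊓ U) := fun _ hx =>
  ⟨image_preimage_le' (σ ⁻¹ᵁ U) (σ ⁻¹ᵁ O) hx, image_preimage_le_self (σ ⁻¹ᵁ U) (σ ⁻¹ᵁ O) hx⟩

/-- The "coefficient along `σ`" maps on sections: `s ↦ σ^♯ (s / g)`. -/
def psiFun (O : X.Opens) :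
    Γ(L, O) →+ Γ((Scheme.Modules.pushforward (σ ⁻¹ᵁ U).ι).obj (𝒪m (σ ⁻¹ᵁ U).toScheme), σ ⁻¹ᵁ O) where
  toFun s := (jSec (σ ⁻¹ᵁ U) (σ ⁻¹ᵁ O)).symm (resO T (image_preimage_le_inf σ O)
    (σ.app (O ⊓ U) (coeff hg (O ⊓ U) inf_le_right (res L inf_le_left s))))
  map_zero' := by
    have : coeff hg (O ⊓ U) inf_le_right (res L (inf_le_left : O ⊓ U ≤ O) 0) = 0 := by
      apply coeff_unique
      rw [zero_smul, map_zero]
    rw [this, map_zero, map_zero, map_zero]
  map_add' s t := by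
    rw [map_add, coeff_add, map_add, map_add, map_add]

theorem jSec_psiFun (O : X.Opens) (s : Γ(L, O)) :
    jSec (σ ⁻¹ᵁ U) (σ ⁻¹ᵁ O) (psiFun σ hg O s) = resO T (image_preimage_le_inf σ O)
      (σ.app (O ⊓ U) (coeff hg (O ⊓ U) inf_le_right (res L inf_le_left s))) := rfl

/-- The morphism `L ⟶ σ_* j_* 𝒪_V`, `s ↦ σ^♯ (s / g)`, where `V = σ⁻¹ U`. -/
def psi : L ⟶ (Scheme.Modules.pushforward σ).obj
    ((Scheme.Modules.pushforward (σ ⁻¹ᵁ U).ι).obj (𝒪m (σ ⁻¹ᵁ U).toScheme)) :=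
  homToPushforward σ (psiFun σ hg)
    (fun O O' h s => by
      apply (jSec (σ ⁻¹ᵁ U) (σ ⁻¹ᵁ O')).injective
      rw [jSec_res, jSec_psiFun, jSec_psiFun, resO_resO, res_res,
        ← res_res L (inf_le_left : O ⊓ U ≤ O) (inf_le_inf_right U h) s,
        coeff_res hg (O ⊓ U) (O' ⊓ U) inf_le_right (inf_le_inf_right U h), app_resO, resO_resO])
    (fun O r s => by
      apply (jSec (σ ⁻¹ᵁ U) (σ ⁻¹ᵁ O)).injective
      rw [jSec_smul, jSec_psiFun, jSec_psiFun, res_smul, coeff_smul, map_mul, map_mul, app_resO,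
        resO_resO])

theorem jSec_pev_psi (O : X.Opens) (s : Γ(L, O)) :
    jSec (σ ⁻¹ᵁ U) (σ ⁻¹ᵁ O) (pev σ (psi σ hg) O s) = resO T (image_preimage_le_inf σ O)
      (σ.app (O ⊓ U) (coeff hg (O ⊓ U) inf_le_right (res L inf_le_left s))) := rfl

/-- **Ev (⇒).**  If `ρ : σ^* L ⟶ 𝒪_T` is an isomorphism, then its adjoint `e : L ⟶ σ_* 𝒪_T`
sends every local generator of `L` to a unit. -/
theorem isUnit_ev_of_isIso (hg : IsGen L U g) (ρ : (Scheme.Modules.pullback σ).obj L ⟶ 𝒪m T)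
    [IsIso ρ] : IsUnit (ev σ (evOf σ ρ) U g) := by
  obtain ⟨ν, hν⟩ := ev_factor σ ρ (psi σ hg)
  have h1 := congrArg (jSec (σ ⁻¹ᵁ U) (σ ⁻¹ᵁ U)) (hν U g)
  rw [jSec_pev_psi, jSec_smul, coeff_gen, map_one, map_one] at h1
  have hu : IsUnit (resO T (image_preimage_le' (σ ⁻¹ᵁ U) (σ ⁻¹ᵁ U)) (ev σ (evOf σ ρ) U g)) :=
    IsUnit.of_mul_eq_one _ h1.symm
  have hVA : σ ⁻¹ᵁ U ≤ (σ ⁻¹ᵁ U).ι ''ᵁ ((σ ⁻¹ᵁ U).ι ⁻¹ᵁ (σ ⁻¹ᵁ U)) := by
    rw [Scheme.Hom.image_preimage_eq_opensRange_inf, Scheme.Opens.opensRange_ι, inf_idem]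
  have := hu.map (resO T hVA)
  rwa [resO_resO, resO_self] at this

/-- **Ev (⇒)**, stated for `e`. -/
theorem isUnit_ev_of_isIso_rhoOf (hg : IsGen L U g)
    (e : L ⟶ (Scheme.Modules.pushforward σ).obj (𝒪m T))
    (h : IsIso (rhoOf σ e)) : IsUnit (ev σ e U g) := by
  have := isUnit_ev_of_isIso σ hg (rhoOf σ e)
  rwa [evOf_rhoOf] at this

end Forward

end Ev

end Fermat.Agent.S25.ZAR.H270
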